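/-
S59 library / Iface (helper7) — PROJECT I, TOP-LEVEL INTERFACE.

Statement S59: `p ∈ {3, 5}`, `W` semistable, `ρ̄_{W,p}` irreducible and residually modular of a level `M₀`
with `p² ∤ M₀`, `M₀` cube-free away from `p`  ⟹  `Mlc1IsModularModelOfExactConductorLevel W`.

Everything is stated in the vocabulary of the frozen statements (`IsResiduallyModularOfLevel`, the Galois
action on the `p`-torsion of `W` over `ℚ̄`, `heckeAlgebra`).  The cut:

  `S59  ⇐  LevelOptBlock  +  LiftBlock  +  OUT`            (`s59_of_blocks`, proved here)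
  `LevelOptBlock  ⇐  LLsqBlock + LowerOneBlock + MRpBlock`   (`levelOptBlock_of_blocks`, proved here)

* OUT (`Out/Main.lean`, helper6, done): a characteristic-zero character of an anemic Hecke algebra of a
  cube-free level `N`, `p² ∤ N`, with the values `a_ℓ(W)`  ⟹  the conclusion of S59.
* `LevelOptBlock`: the hypotheses of S59 give an OPTIMAL level `N` (`IsOptimalLevel`): `N` is squarefree, a level
  of `ρ̄`, `ρ̄` is ramified at every prime `q ≠ p` of `N`, and if `p ∣ N` then NO cube-free level prime to `p` is a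
  level of `ρ̄` and `W` is either bad at `p` (then every eigenform of a cube-free level `p ∥ N'` in the class of
  `ρ̄` is `p`-new: the strict-ordinary machinery runs on the full Hecke modules) or good SUPERSINGULAR at `p`
  (then `p` is CARRIED in the level: the Hecke Galois representations at levels `p ∥ N'` are flat at `p`
  because `ρ̄|I_p` has no coinvariants — block FLAT-SS — and the flat machinery runs at the level `N ∋ p`).
* `LiftBlock` (minimal `R = T` by Taylor–Wiles patching at the optimal level, then the numerical criterion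
  for the primes of `W` at which `ρ̄` is unramified, then — if `W` is multiplicative at `p` and `p ∤ N` — the
  step at `p`): an optimal level gives the character of OUT.
* `LLsqBlock`: Mazur's principle at `q² ∥ M` (`q ≠ p`; no hypothesis on `ρ̄` at `q`: `W` is semistable, so
  inertia at `q` fixes a line of `W[p]`).
* `LowerOneBlock`: Ribet's theorem at a squarefree MINIMAL divisor-level (Mazur's principle B0 for
  `q ≢ 1 mod p` or non-scalar Frobenius, Ihara avoidance for the rest), any semistable `W`, `p ∈ {3, 5}`,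
  `q = 2` allowed, `p ∥ M` allowed (then `W` is bad or good supersingular at `p` and no level prime to `p`
  exists).
* `MRpBlock`: Mazur–Ribet at `p` for `W` with good ORDINARY reduction at `p` (the frozen S40 for semistable
  `W`, `p ∈ {3, 5}`, squarefree level, `ρ̄|I_p` reducible).
-/
import Fermat.Statements.S59
import Fermat.Agent.S59lib.Out.Main

set_option autoImplicit false

open scoped WeierstrassCurve.Affine
open WeierstrassCurve

namespace Fermat.Agent.S59lib

local notation "Qb" => AlgebraicClosure ℚ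

/-! ### Vocabulary -/

/-- `ρ̄_{W,p}` is unramified at `q`: every inertia group above `q` acts trivially on the `p`-torsion of `W`
over `ℚ̄`. -/
def ModPUnramifiedAt (W : WeierstrassCurve ℤ) (p q : ℕ) : Prop :=
  ∀ A : ValuationSubring Qb, A.LiesOverPrime q → ∀ σ ∈ A.inertiaSubgroupIn ℚ,
    ∀ x : Submodule.torsionBy ℤ ((W.map (Int.castRingHom ℚ))⁄Qb).Point p, σ • x = x

/-- `ρ̄_{W,p}|I_p` is irreducible (`W` has good SUPERSINGULAR reduction at `p`): no inertia group above `p`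
stabilises a proper non-zero subgroup of the `p`-torsion of `W` over `ℚ̄`.  (Stated on the Galois side: no
`a_p`, no point count.) -/
def ModPInertiaIrreducible (W : WeierstrassCurve ℤ) (p : ℕ) : Prop :=
  ∀ A : ValuationSubring Qb, A.LiesOverPrime p →
    ∀ L : AddSubgroup (Submodule.torsionBy ℤ ((W.map (Int.castRingHom ℚ))⁄Qb).Point p),
      (∀ σ ∈ A.inertiaSubgroupIn ℚ, ∀ x ∈ L, σ • x ∈ L) → L = ⊥ ∨ L = ⊤

/-- `M` is cube-free. -/
def IsCubeFree (M : ℕ) : Prop := ∀ q : ℕ, q.Prime → ¬ q ^ 3 ∣ M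

/-- `M` is a level of `ρ̄_{W,p}` and no proper divisor of `M` is. -/
def IsMinimalDivLevel (W : WeierstrassCurve ℤ) (p M : ℕ) : Prop :=
  W.IsResiduallyModularOfLevel p M ∧
    ∀ M' : ℕ, M' ∣ M → M' ≠ M → ¬ W.IsResiduallyModularOfLevel p M'

/-- No cube-free level prime to `p` is a level of `ρ̄_{W,p}`. -/
def NoLevelPrimeTo (W : WeierstrassCurve ℤ) (p : ℕ) : Prop :=
  ∀ M : ℕ, 0 < M → ¬ p ∣ M → IsCubeFree M → ¬ W.IsResiduallyModularOfLevel p M

/-- **Optimal level.** -/
structure IsOptimalLevel (W : WeierstrassCurve ℤ) (p N : ℕ) : Prop where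
  pos : 0 < N
  resMod : W.IsResiduallyModularOfLevel p N
  squarefree : Squarefree N
  ramified : ∀ q : ℕ, q.Prime → q ≠ p → q ∣ N → ¬ ModPUnramifiedAt W p q
  ss_of_dvd : p ∣ N → W.IsGoodPrimeFor p → ModPInertiaIrreducible W p
  noLevel_of_dvd : p ∣ N → NoLevelPrimeTo W p

/-- The input of OUT: a characteristic-zero system of Hecke eigenvalues `a_ℓ(W)` at a cube-free level `N`
with `p² ∤ N`. -/
def HasCharZeroSystem (W : WeierstrassCurve ℤ) (p : ℕ) : Prop :=
  ∃ (N : ℕ) (_ : NeZero N), ¬ p ^ 2 ∣ N ∧ (∀ q : ℕ, q.Prime → ¬ q ^ 3 ∣ N) ∧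
    ∃ (S : Finset ℕ) (𝒪 : Type) (_ : CommRing 𝒪) (_ : IsDomain 𝒪) (_ : CharZero 𝒪)
      (χ : CuspForm.heckeAlgebra N 2 (↑S : Set ℕ) →+* 𝒪),
      ∀ (ℓ : ℕ) (hℓ : ℓ.Prime) (hℓN : ¬ ℓ ∣ N) (hℓS : ℓ ∉ (↑S : Set ℕ)),
        χ (CuspForm.heckeAlgebra.T hℓ hℓN hℓS) = ((W.apOfModel ℓ : ℤ) : 𝒪)

/-! ### The blocks -/

/-- **Block LEVELOPT.** -/
def LevelOptBlock : Prop :=
  ∀ (p : ℕ), (p = 3 ∨ p = 5) → ∀ (W : WeierstrassCurve ℤ), W.Δ ≠ 0 → W.IsSemistableModel →
    W.ModRepIsIrreducible p → ∀ M₀ : ℕ, 0 < M₀ → W.IsResiduallyModularOfLevel p M₀ → ¬ p ^ 2 ∣ M₀ →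
    (∀ q : ℕ, q.Prime → q ≠ p → ¬ q ^ 3 ∣ M₀) → ∃ N : ℕ, IsOptimalLevel W p N

/-- **Block LIFT.** -/
def LiftBlock : Prop :=
  ∀ (p : ℕ), (p = 3 ∨ p = 5) → ∀ (W : WeierstrassCurve ℤ), W.Δ ≠ 0 → W.IsSemistableModel →
    W.ModRepIsIrreducible p → ∀ N : ℕ, IsOptimalLevel W p N → HasCharZeroSystem W p

/-- **Block LLSQ** (Mazur's principle at `q² ∥ M`). -/
def LLsqBlock : Prop :=
  ∀ (p : ℕ), (p = 3 ∨ p = 5) → ∀ (W : WeierstrassCurve ℤ), W.Δ ≠ 0 → W.IsSemistableModel →
    W.ModRepIsIrreducible p → ∀ M q : ℕ, 0 < M → q.Prime → q ≠ p → q ^ 2 ∣ M → ¬ q ^ 3 ∣ M →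
    W.IsResiduallyModularOfLevel p M → W.IsResiduallyModularOfLevel p (M / q)

/-- **Block LOWERONE** (Ribet's theorem at a squarefree minimal divisor-level). -/
def LowerOneBlock : Prop :=
  ∀ (p : ℕ), (p = 3 ∨ p = 5) → ∀ (W : WeierstrassCurve ℤ), W.Δ ≠ 0 → W.IsSemistableModel →
    W.ModRepIsIrreducible p → ∀ M q : ℕ, 0 < M → Squarefree M → q.Prime → q ≠ p → q ∣ M →
    IsMinimalDivLevel W p M → (p ∣ M → W.IsGoodPrimeFor p → ModPInertiaIrreducible W p) →
    (p ∣ M → NoLevelPrimeTo W p) → ModPUnramifiedAt W p q → False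

/-- **Block MRP** (Mazur–Ribet at `p`, good ORDINARY reduction at `p`).  The conclusion is only that SOME cube-free level
prime to `p` is a level of `ρ̄` (this is all `levelOptBlock_of_blocks` uses): a rigidifying auxiliary level
(e.g. `4` for the nodal model in residue characteristic `3`) may STAY in the level. -/
def MRpBlock : Prop :=
  ∀ (p : ℕ), (p = 3 ∨ p = 5) → ∀ (W : WeierstrassCurve ℤ), W.Δ ≠ 0 → W.IsSemistableModel →
    W.ModRepIsIrreducible p → W.IsGoodPrimeFor p → ¬ ModPInertiaIrreducible W p →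
    ∀ M : ℕ, 0 < M → Squarefree M → p ∣ M → W.IsResiduallyModularOfLevel p M →
    ∃ M' : ℕ, 0 < M' ∧ ¬ p ∣ M' ∧ IsCubeFree M' ∧ W.IsResiduallyModularOfLevel p M'

/-! ### The reductions -/

/-- The least level of `ρ̄` dividing `M` is a minimal divisor-level. -/
theorem exists_minimalDivLevel (W : WeierstrassCurve ℤ) (p : ℕ) {M : ℕ} (hM : 0 < M)
    (hmod : W.IsResiduallyModularOfLevel p M) : ∃ N : ℕ, N ∣ M ∧ IsMinimalDivLevel W p N := by
  classical
  have hex : ∃ N : ℕ, N ∣ M ∧ W.IsResiduallyModularOfLevel p N := ⟨M, dvd_rfl, hmod⟩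
  refine ⟨Nat.find hex, (Nat.find_spec hex).1, (Nat.find_spec hex).2, ?_⟩
  intro M' hM' hne hM'mod
  have hle : Nat.find hex ≤ M' := Nat.find_min' hex ⟨hM'.trans (Nat.find_spec hex).1, hM'mod⟩
  have hpos : 0 < Nat.find hex := Nat.pos_of_dvd_of_pos (Nat.find_spec hex).1 hM
  exact hne (le_antisymm (Nat.le_of_dvd hpos hM') hle)

theorem isCubeFree_of_squarefree {N : ℕ} (h : Squarefree N) : IsCubeFree N := by
  intro q hq h3
  have h2 : q * q ∣ N := dvd_trans ⟨q, by ring⟩ h3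
  exact hq.one_lt.ne' (Nat.isUnit_iff.mp (h q h2))

theorem isCubeFree_of_dvd {N M : ℕ} (hNM : N ∣ M) (h : IsCubeFree M) : IsCubeFree N :=
  fun q hq h3 => h q hq (h3.trans hNM)

/-- a minimal divisor-level of a level that is cube-free away from `p` and not divisible by `p²` is
squarefree (Mazur's principle at `q²`) -/
theorem squarefree_of_minimalDivLevel (hLL : LLsqBlock) {p : ℕ} (hp : p = 3 ∨ p = 5)
    {W : WeierstrassCurve ℤ} (hΔ : W.Δ ≠ 0) (hss : W.IsSemistableModel)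
    (hirr : W.ModRepIsIrreducible p) {M N : ℕ} (hM : 0 < M) (hp2 : ¬ p ^ 2 ∣ M)
    (h3 : ∀ q : ℕ, q.Prime → q ≠ p → ¬ q ^ 3 ∣ M) (hNM : N ∣ M) (hmin : IsMinimalDivLevel W p N) :
    Squarefree N := by
  have hNpos : 0 < N := Nat.pos_of_dvd_of_pos hNM hM
  rw [Nat.squarefree_iff_prime_squarefree]
  intro q hq hqq
  have hq2 : q ^ 2 ∣ N := by rwa [pow_two]
  by_cases hqp : q = p
  · subst hqp
    exact hp2 (hq2.trans hNM)
  · have hq3 : ¬ q ^ 3 ∣ N := fun h => h3 q hq hqp (h.trans hNM)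
    have hlow := hLL p hp W hΔ hss hirr N q hNpos hq hqp hq2 hq3 hmin.1
    have hqN : q ∣ N := dvd_trans (dvd_pow_self q two_ne_zero) hq2
    exact hmin.2 (N / q) (Nat.div_dvd_of_dvd hqN) (Nat.div_lt_self hNpos hq.one_lt).ne hlow

/-- **`LevelOptBlock` from the three level-lowering blocks.** -/
theorem levelOptBlock_of_blocks (hLL : LLsqBlock) (hL1 : LowerOneBlock) (hMR : MRpBlock) :
    LevelOptBlock := by
  intro p hp W hΔ hss hirr M₀ hM₀ hres₀ hp2 h3
  by_cases hA : ∃ M : ℕ, 0 < M ∧ ¬ p ∣ M ∧ IsCubeFree M ∧ W.IsResiduallyModularOfLevel p M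
  · -- case (A): a cube-free level prime to `p`
    obtain ⟨M, hM, hpM, hcf, hres⟩ := hA
    obtain ⟨N, hNM, hmin⟩ := exists_minimalDivLevel W p hM hres
    have hNpos : 0 < N := Nat.pos_of_dvd_of_pos hNM hM
    have hpN : ¬ p ∣ N := fun h => hpM (h.trans hNM)
    have hsq : Squarefree N :=
      squarefree_of_minimalDivLevel hLL hp hΔ hss hirr hM
        (fun h => hpM (dvd_trans (dvd_pow_self p two_ne_zero) h)) (fun q hq _ => hcf q hq) hNM hmin
    refine ⟨N, hNpos, hmin.1, hsq, ?_, fun h => absurd h hpN, fun h => absurd h hpN⟩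
    intro q hq hqp hqN hunr
    exact hL1 p hp W hΔ hss hirr N q hNpos hsq hq hqp hqN hmin (fun h => absurd h hpN)
      (fun h => absurd h hpN) hunr
  · -- case (B): no cube-free level prime to `p`
    have hno : NoLevelPrimeTo W p := fun M hM hpM hcf hres => hA ⟨M, hM, hpM, hcf, hres⟩
    obtain ⟨N, hNM, hmin⟩ := exists_minimalDivLevel W p hM₀ hres₀
    have hNpos : 0 < N := Nat.pos_of_dvd_of_pos hNM hM₀
    have hsq : Squarefree N :=
      squarefree_of_minimalDivLevel hLL hp hΔ hss hirr hM₀ hp2 h3 hNM hmin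
    have hpN : p ∣ N := by
      by_contra hpN
      exact hno N hNpos hpN (isCubeFree_of_squarefree hsq) hmin.1
    have hssp : W.IsGoodPrimeFor p → ModPInertiaIrreducible W p := by
      intro hgood
      by_contra hord
      obtain ⟨M', hM', hpM', hcf', hres'⟩ :=
        hMR p hp W hΔ hss hirr hgood hord N hNpos hsq hpN hmin.1
      exact hno M' hM' hpM' hcf' hres'
    refine ⟨N, hNpos, hmin.1, hsq, ?_, fun _ => hssp, fun _ => hno⟩
    intro q hq hqp hqN hunr
    exact hL1 p hp W hΔ hss hirr N q hNpos hsq hq hqp hqN hmin (fun _ => hssp) (fun _ => hno) hunr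

/-- **The reduction of S59 to the two top-level blocks.** -/
theorem s59_of_blocks (hOpt : LevelOptBlock) (hLift : LiftBlock)
    (p : ℕ) (hp : p = 3 ∨ p = 5)
    (W : WeierstrassCurve ℤ) (hΔ : W.Δ ≠ 0) (hW : W.IsSemistableModel) (hirr : W.ModRepIsIrreducible p)
    (M₀ : ℕ) [NeZero M₀] (hres₀ : W.IsResiduallyModularOfLevel p M₀)
    (hM₀ : ¬ p ^ 2 ∣ M₀)
    (hM₀3 : ∀ q : ℕ, q.Prime → q ≠ p → ¬ q ^ 3 ∣ M₀) :
    Mlc1IsModularModelOfExactConductorLevel W := by
  have hpp : p.Prime := by rcases hp with rfl | rfl <;> norm_num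
  have hp2 : p ≠ 2 := by rcases hp with rfl | rfl <;> norm_num
  have : Fact p.Prime := ⟨hpp⟩
  obtain ⟨N, hN⟩ := hOpt p hp W hΔ hW hirr M₀ (Nat.pos_of_ne_zero (NeZero.ne M₀)) hres₀ hM₀ hM₀3
  obtain ⟨N', hN'ne, hp2N', hN'3, S, 𝒪, _, _, _, χ, hχ⟩ := hLift p hp W hΔ hW hirr N hN
  exact Out.mlc1_of_char W hΔ hW p hp2 hirr N' hp2N' hN'3 S 𝒪 χ hχ

end Fermat.Agent.S59lib
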