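/-
S59 library / LiftIface (helper7) — PROJECT I, interface of the block LIFT.

`LiftBlock  ⇐  RTBlock + CurveBlock`            (`liftBlock_of_rt_curve`, proved here)

* `IsTateLike W p ρ` : the properties of the `p`-adic Tate module of `W` (extended to a coefficient ring `𝒪`)
  that the `R = T` machinery consumes: determinant cyclotomic; FLAT at `p` if `W` is good at `p`, STRICT
  ORDINARY at `p` if `W` is bad (multiplicative) at `p`; unipotent inertia at every `q ≠ p`; unramified at every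
  good `q ≠ p`; Frobenius polynomials `X² − a_ℓ(W) X + ℓ` at the good `ℓ ≠ p`.
* `CurveBlock` : over EVERY complete DVR `𝒪` of characteristic zero with finite residue field of
  characteristic `p` there is a Tate-like representation (`S58lib.Tate.tateRep (WQ' W) p hpO _`: blocks
  `Curve/Away` (helper6), C2 `Flat.tateRep_isFlatAt` (helper2, helper9), STRICT-W (C3)).
* `RTBlock` : an OPTIMAL level gives a coefficient ring `𝒪` such that every Tate-like representation over `𝒪`
  is modular: there is a characteristic-zero system of Hecke eigenvalues `a_ℓ(W)` at a cube-free level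
  `N'`, `p² ∤ N'` (minimal `R = T` at the optimal level by Taylor–Wiles patching — block MIN —, then the
  numerical criterion at the primes of `W` where `ρ̄` is unramified — block ΣSTEP, level `q²`, `U_q ∈ 𝔪`,
  unrestricted deformations at `q` —, then, if `W` is multiplicative at `p` and `p ∤ N`, the step at `p` —
  block PSTEP).

The three at-`p` modes of MIN (`N` the optimal level):
  (flat)    `p ∤ N`                      : `ρ_T` flat by the frozen S32;
  (flat-ss) `p ∣ N`, `W` good at `p`     : then `ρ̄|I_p` is irreducible (`IsOptimalLevel.ss_of_dvd`), has no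
                                            coinvariants and `ρ_T` is flat by block FLAT-SS (`p` stays in the level);
  (strict)  `p ∣ N`, `W` bad at `p`      : no level prime to `p` exists (`IsOptimalLevel.noLevel_of_dvd`), every
                                            form in the class is `p`-new and `ρ_T` is strict ordinary (STRICT-T).
-/
import Fermat.Agent.S59lib.Iface
import Fermat.Prelude.Def_GaloisRep_Flat
import Fermat.Prelude.Def_GaloisRep_StrictOrdinary

set_option autoImplicit false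

open Polynomial

namespace Fermat.Agent.S59lib

local notation "Qb" => AlgebraicClosure ℚ
local notation "GQ" => (AlgebraicClosure ℚ ≃ₐ[ℚ] AlgebraicClosure ℚ)

/-- **Tate-like representations**: what the `R = T` machinery needs to know about `T_p W ⊗ 𝒪`. -/
structure IsTateLike (W : WeierstrassCurve ℤ) (p : ℕ) {𝒪 : Type} [CommRing 𝒪] [IsLocalRing 𝒪]
    (ρ : GaloisRepAdic 𝒪) : Prop where
  det : ρ.DetIsCyclotomic p
  flat : W.IsGoodPrimeFor p → ρ.IsFlatAt p
  strict : ¬ W.IsGoodPrimeFor p → ρ.IsStrictOrdinaryAt p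
  unip : ∀ q : ℕ, q.Prime → q ≠ p → ρ.IsUnipotentOnInertiaAt q
  unram : ∀ q : ℕ, q.Prime → q ≠ p → W.IsGoodPrimeFor q → ρ.IsUnramifiedAt q
  frob : ∀ ℓ : ℕ, ℓ.Prime → ℓ ≠ p → W.IsGoodPrimeFor ℓ →
    ∀ A : ValuationSubring Qb, A.LiesOverPrime ℓ → ∀ σ : GQ, A.IsFrobeniusAt σ ℓ →
      LinearMap.charpoly (ρ.ρ σ) = X ^ 2 - C (((W.apOfModel ℓ : ℤ) : 𝒪)) * X + C ((ℓ : ℕ) : 𝒪)

/-- **Block CURVE.** -/
def CurveBlock : Prop :=
  ∀ (p : ℕ), (p = 3 ∨ p = 5) → ∀ (W : WeierstrassCurve ℤ), W.Δ ≠ 0 → W.IsSemistableModel →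
    W.ModRepIsIrreducible p →
    ∀ (𝒪 : Type) [CommRing 𝒪] [IsDomain 𝒪] [IsDiscreteValuationRing 𝒪]
      [IsAdicComplete (IsLocalRing.maximalIdeal 𝒪) 𝒪] [Finite (IsLocalRing.ResidueField 𝒪)]
      [CharZero 𝒪], (p : 𝒪) ∈ IsLocalRing.maximalIdeal 𝒪 →
      ∃ ρ : GaloisRepAdic 𝒪, IsTateLike W p ρ

/-- **Block RT.** -/
def RTBlock : Prop :=
  ∀ (p : ℕ), (p = 3 ∨ p = 5) → ∀ (W : WeierstrassCurve ℤ), W.Δ ≠ 0 → W.IsSemistableModel →
    W.ModRepIsIrreducible p → ∀ N : ℕ, IsOptimalLevel W p N →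
    ∃ (𝒪 : Type) (_ : CommRing 𝒪) (_ : IsDomain 𝒪) (_ : IsDiscreteValuationRing 𝒪)
      (_ : IsAdicComplete (IsLocalRing.maximalIdeal 𝒪) 𝒪) (_ : Finite (IsLocalRing.ResidueField 𝒪))
      (_ : CharZero 𝒪), (p : 𝒪) ∈ IsLocalRing.maximalIdeal 𝒪 ∧
      ∀ ρ : GaloisRepAdic 𝒪, IsTateLike W p ρ → HasCharZeroSystem W p

/-- **`LiftBlock` from RT and CURVE.** -/
theorem liftBlock_of_rt_curve (hRT : RTBlock) (hC : CurveBlock) : LiftBlock := by
  intro p hp W hΔ hss hirr N hN
  obtain ⟨𝒪, i1, i2, i3, i4, i5, i6, hp𝒪, h⟩ := hRT p hp W hΔ hss hirr N hN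
  obtain ⟨ρ, hρ⟩ := hC p hp W hΔ hss hirr 𝒪 hp𝒪
  exact h ρ hρ

end Fermat.Agent.S59lib
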